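import Fermat.Agent.GenericHyperfinite.Mergers
import Fermat.Agent.SilverDichotomy.Category
import Fermat.Agent.BorelCombinatorics.Markers

/-!
# Hyperfiniteness off a meagre set

For each pair of related points the generic sequence of choices merges them. By Kuratowski and
Ulam one sequence merges almost every class completely.
-/

set_option autoImplicit false

universe u

namespace FA.GenericHyperfinite

open Set Topology Filter MeasureTheory FA.BorelCombinatorics FA.SilverDichotomy

variable {X : Type u} [TopologicalSpace X] [PolishSpace X] [MeasurableSpace X] [BorelSpace X]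

/-- **Sullivan, Weiss and Wright; Hjorth and Kechris.** A countable Borel equivalence relation
is hyperfinite on a comeagre invariant Borel set. -/
theorem exists_comeagre_hyperfinite (s : Setoid X) (hs : MeasurableSet {p : X × X | s p.1 p.2})
    (hcount : ∀ x, {y | s x y}.Countable) :
    ∃ C : Set X, MeasurableSet C ∧ C ∈ residual X ∧ (∀ x ∈ C, ∀ y, s x y → y ∈ C) ∧
      IsHyperfinite (Setoid.comap (Subtype.val : C → X) s) := by
  obtain ⟨g, hg⟩ := exists_measurableEmbedding_real X
  obtain ⟨h, hhm, hhi, hh⟩ := FA.Selection.exists_borel_involutions s hs hcount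
  have hrel : ∀ k x, s x (h k x) := fun k x => (hh _ _).2 ⟨k, rfl⟩
  let good : Set ((ℕ → ℕ) × X) :=
    {p | ∀ k, ∃ n, repr g h p.1 n p.2 = repr g h p.1 n (h k p.2)}
  have hrm := measurable_repr hg.measurable hhm
  have hgood : MeasurableSet good := by
    simp only [good, ofPred_forall, ofPred_exists]
    exact MeasurableSet.iInter fun k => MeasurableSet.iUnion fun n => measurableSet_eq_fun (hrm n)
      ((hrm n).comp (measurable_fst.prodMk ((hhm k).comp measurable_snd)))
  have : PolishSpace (ℕ → ℕ) := ⟨⟩
  let bad : Set (X × (ℕ → ℕ)) := {p | Prod.swap p ∈ goodᶜ}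
  have hsec : ∀ x, IsMeagre {α | (x, α) ∈ bad} := fun x => by
    have hsub : {α | (x, α) ∈ bad} ⊆
        ⋃ k, {α | ∃ n, repr g h α n x = repr g h α n (h k x)}ᶜ := fun α hα => by
      obtain ⟨k, hk⟩ := not_forall.1 (show ¬∀ k, ∃ n, repr g h α n x = repr g h α n (h k x) from hα)
      exact mem_iUnion.2 ⟨k, hk⟩
    refine isMeagre_mono (isMeagre_iUnion_countable fun k => ?_) hsub
    rw [IsMeagre, compl_compl]
    refine residual_of_dense_open (isOpen_iff_mem_nhds.2 fun α ⟨n, hn⟩ => ?_)
      (dense_iff_inter_open.2 fun U hU ⟨α, hα⟩ => ?_)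
    · filter_upwards [(PiNat.isOpen_cylinder (fun _ : ℕ => ℕ) α n).mem_nhds
        (PiNat.self_mem_cylinder α n)] with β hβ
      exact ⟨n, by rw [repr_congr n hβ]; exact hn⟩
    · obtain ⟨_, ⟨w, n, rfl⟩, hαn, hnU⟩ :=
        (PiNat.isTopologicalBasis_cylinders fun _ : ℕ => ℕ).exists_subset_of_mem_open hα hU
      obtain ⟨j, hj⟩ := (hh (repr g h α n x) (repr g h α n (h k x))).1
        (s.trans (s.symm (repr_rel hrel α n x)) (s.trans (hrel k x) (repr_rel hrel α n _)))
      let β : ℕ → ℕ := Function.update α n j
      have hβ : ∀ i < n, β i = α i := fun i hi => Function.update_of_ne hi.ne _ _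
      refine ⟨β, hnU (fun i hi => (hβ i hi).trans (hαn i hi)), n + 1, ?_⟩
      show merge g (h (β n)) (repr g h β n) x = merge g (h (β n)) (repr g h β n) (h k x)
      rw [repr_congr n hβ, show β n = j from Function.update_self ..]
      exact merge_eq_of_exchanged (hhi j) (repr_idem hhi α n) hg.injective hj
  have hbad : IsMeagre bad := isMeagre_of_sections
    ((measurable_swap hgood.compl).baireMeasurableSet) (Eventually.of_forall hsec)
  obtain ⟨α, hα⟩ := (dense_of_mem_residual (eventually_section_isMeagre
    (hbad.preimage_of_isOpenMap continuous_swap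
      (Homeomorph.prodComm (ℕ → ℕ) X).isOpenMap))).nonempty
  let C : Set X := {x | (α, x) ∈ good}
  have hC : C ∈ residual X := by
    rw [← compl_compl C]
    exact hα
  refine ⟨C, measurable_prodMk_left hgood, hC, fun x hx y hxy k => ?_, ?_⟩
  · obtain ⟨i, rfl⟩ := (hh x y).1 hxy
    obtain ⟨j, hj⟩ := (hh x (h k (h i x))).1 (s.trans (hrel i x) (hrel k _))
    obtain ⟨n, hn⟩ := hx i
    obtain ⟨m, hm⟩ := hx j
    refine ⟨max n m, ?_⟩
    show repr g h α _ (h i x) = repr g h α _ (h k (h i x))
    rw [← hj, ← repr_mono α (le_max_left n m) hn, repr_mono α (le_max_right n m) hm]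
  · refine ⟨fun n => Setoid.ker fun x : C => repr g h α n x, fun n => ?_, fun n x => ?_,
      fun n x y e => repr_mono α n.le_succ e, fun x y => ⟨fun hxy => ?_, fun ⟨n, hn⟩ => ?_⟩⟩
    · have hm : Measurable fun x : C => repr g h α n x :=
        ((hrm n).comp measurable_prodMk_left).comp measurable_subtype_coe
      exact measurableSet_eq_fun (hm.comp measurable_fst) (hm.comp measurable_snd)
    · exact ((finite_repr_fibre hhi α n (repr g h α n x)).preimage
        Subtype.val_injective.injOn).subset fun y hy => hy.symm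
    · obtain ⟨k, hk⟩ := (hh _ _).1 hxy
      obtain ⟨n, hn⟩ := x.2 k
      exact ⟨n, hn.trans (congrArg _ hk)⟩
    · exact s.trans (repr_rel hrel α n x)
        (s.symm ((show repr g h α n x = repr g h α n y from hn) ▸ repr_rel hrel α n y))

end FA.GenericHyperfinite
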