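import Fermat.Agent.BorelCombinatorics.EZero

/-!
# Merging classes along a sequence of involutions

A retraction with finite fibres picks a representative in each class of a finite subrelation.
A choice of one involution per step merges the classes of two representatives which it
exchanges.
-/

set_option autoImplicit false

universe u

namespace FA.GenericHyperfinite

open Set

variable {X : Type u}

open Classical in
/-- One step: representatives exchanged by the involution share the smaller one. -/
noncomputable def merge (g : X → ℝ) (h r : X → X) (x : X) : X :=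
  if r (h (r x)) = h (r x) ∧ g (h (r x)) < g (r x) then h (r x) else r x

/-- The representatives after the first choices. -/
noncomputable def repr (g : X → ℝ) (h : ℕ → X → X) (α : ℕ → ℕ) : ℕ → X → X
  | 0 => id
  | n + 1 => merge g (h (α n)) (repr g h α n)

variable {g : X → ℝ}

theorem merge_idem {h r : X → X} (hh : Function.Involutive h) (hr : ∀ x, r (r x) = r x) (x : X) :
    merge g h r (merge g h r x) = merge g h r x := by
  by_cases hc : r (h (r x)) = h (r x) ∧ g (h (r x)) < g (r x)
  · have e : merge g h r x = h (r x) := if_pos hc
    rw [e, merge, hc.1, hh, if_neg fun h' => hc.2.not_gt h'.2]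
  · have e : merge g h r x = r x := if_neg hc
    rw [e, merge, hr, if_neg hc]

theorem merge_congr {h r : X → X} {x y : X} (e : r x = r y) : merge g h r x = merge g h r y := by
  unfold merge
  rw [e]

/-- Exchanged representatives are merged. -/
theorem merge_eq_of_exchanged {h r : X → X} (hh : Function.Involutive h) (hr : ∀ x, r (r x) = r x)
    (hg : Function.Injective g) {x y : X} (e : h (r x) = r y) :
    merge g h r x = merge g h r y := by
  have e' : h (r y) = r x := by rw [← e, hh]
  simp only [merge, e, e', hr, true_and]
  rcases lt_trichotomy (g (r y)) (g (r x)) with hlt | heq | hlt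
  · rw [if_pos hlt, if_neg hlt.not_gt]
  · rw [if_neg heq.not_lt, if_neg heq.not_gt, hg heq]
  · rw [if_neg hlt.not_gt, if_pos hlt]

variable {h : ℕ → X → X}

theorem repr_idem (hh : ∀ k, Function.Involutive (h k)) (α : ℕ → ℕ) :
    ∀ n x, repr g h α n (repr g h α n x) = repr g h α n x
  | 0, _ => rfl
  | n + 1, x => merge_idem (hh _) (repr_idem hh α n) x

theorem repr_mono (α : ℕ → ℕ) {n m : ℕ} (hnm : n ≤ m) {x y : X}
    (e : repr g h α n x = repr g h α n y) : repr g h α m x = repr g h α m y := by
  induction hnm with
  | refl => exact e
  | step _ ih => exact merge_congr ih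

theorem repr_rel {s : Setoid X} (hs : ∀ k x, s x (h k x)) (α : ℕ → ℕ) :
    ∀ n x, s x (repr g h α n x)
  | 0, x => s.refl x
  | n + 1, x => by
    show s x (merge g (h (α n)) (repr g h α n) x)
    unfold merge
    split
    exacts [s.trans (repr_rel hs α n x) (hs _ _), repr_rel hs α n x]

theorem finite_repr_fibre (hh : ∀ k, Function.Involutive (h k)) (α : ℕ → ℕ) :
    ∀ n z, {x | repr g h α n x = z}.Finite
  | 0, z => (finite_singleton z).subset fun _ hx => hx
  | n + 1, z => ((finite_repr_fibre hh α n z).union
      (finite_repr_fibre hh α n (h (α n) z))).subset fun x hx => by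
    have hx' : merge g (h (α n)) (repr g h α n) x = z := hx
    unfold merge at hx'
    split at hx'
    · exact .inr (show repr g h α n x = h (α n) z by rw [← hx', hh])
    · exact .inl hx'

theorem repr_congr {α β : ℕ → ℕ} : ∀ n, (∀ i < n, α i = β i) → repr g h α n = repr g h β n
  | 0, _ => rfl
  | n + 1, he => by
    show merge g _ _ = merge g _ _
    rw [repr_congr n fun i hi => he i (hi.trans (Nat.lt_succ_self n)), he n (Nat.lt_succ_self n)]

open MeasureTheory in
theorem measurable_repr [MeasurableSpace X] [MeasurableEq X] (hg : Measurable g)
    (hh : ∀ k, Measurable (h k)) :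
    ∀ n, Measurable fun p : (ℕ → ℕ) × X => repr g h p.1 n p.2
  | 0 => measurable_snd
  | n + 1 => by
    have hr := measurable_repr hg hh n
    have hH : Measurable fun q : X × ℕ => h q.2 q.1 :=
      measurable_from_prod_countable_left fun k => hh k
    have hu : Measurable fun p : (ℕ → ℕ) × X => h (p.1 n) (repr g h p.1 n p.2) :=
      hH.comp (hr.prodMk ((measurable_pi_apply n).comp measurable_fst))
    exact Measurable.ite ((measurableSet_eq_fun (hr.comp (measurable_fst.prodMk hu)) hu).inter
      (measurableSet_lt (hg.comp hu) (hg.comp hr))) hu hr

end FA.GenericHyperfinite
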